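import Mathlib
import Fermat.Agent.LT.T3.R.Spec

/-!
# Row LT, tower T3, station T3.18R, leaf R.7 `LocValInfRC` (helper611), OFF-MAIN

`locValInfRC611 : T3.R.LocValInfRC K` for every number field `K`, the Prop of
`LT/T3/R/Spec.lean` (helper14@15de5f60f, sha256 a528b35aabb14cdc) VERBATIM, UNCONDITIONAL.

Proof (model: `T3.H800.locValInfC800`).  With `a₁ = (c₁)_w`, `a₂ = (c₂)_w`, `r = (α)_w > 0` in
`ℝˣ`: `x ↦ upperGL (a₁ rʲ) a₂ (x + t)` is continuous into `GL₂(ℝ)`, the support is contained in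
a translate of the image of `tsupport F` under the entry `(0,1)`, Lebesgue measure is invariant
under translations and under `x ↦ -x`.  Signs: on the positive diagonal `HasAbelNR`; on the
negative diagonal `upperGL (a₁ rʲ) a₂ x = (-1) * upperGL (|a₁| rʲ) |a₂| (-x)`, `-1 ∈ SO(2)`,
`wtChar n (-1) = (-1)ⁿ`; for mixed signs `det < 0` and `F = 0`.
-/

set_option autoImplicit false

open IsDedekindDomain NumberField MeasureTheory
open Fermat.Agent.LT.H556.A0

noncomputable section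

namespace Fermat.Agent.LT.T3.R.H611

open Fermat.Agent.LT.T3 Fermat.Agent.LT.T3.AS Fermat.Agent.LT.T3.AS.N893 Fermat.Agent.LT.T3.M
open Fermat.Agent.LT.T3.R

/-! ## 1. `x ↦ [[d₁, x + t], [0, d₂]]` over `ℝ` -/

theorem continuous_upperGL611 (d₁ d₂ : ℝˣ) (t : ℝ) :
    Continuous (fun x : ℝ => upperGL d₁ d₂ (x + t)) := by
  rw [Units.continuous_iff]
  constructor
  · have h : (Units.val ∘ fun x : ℝ => upperGL d₁ d₂ (x + t))
        = fun x : ℝ => (!![(d₁ : ℝ), x + t; 0, (d₂ : ℝ)] : Matrix (Fin 2) (Fin 2) ℝ) := by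
      funext x
      rfl
    rw [h]
    refine continuous_matrix fun i j => ?_
    fin_cases i <;> fin_cases j
    · exact continuous_const
    · exact continuous_id.add continuous_const
    · exact continuous_const
    · exact continuous_const
  · have h : (fun x : ℝ => (((upperGL d₁ d₂ (x + t))⁻¹ : GL (Fin 2) ℝ) :
          Matrix (Fin 2) (Fin 2) ℝ))
        = fun x : ℝ => (!![((d₁⁻¹ : ℝˣ) : ℝ), -(((d₁⁻¹ : ℝˣ) : ℝ) * (x + t) * ((d₂⁻¹ : ℝˣ) : ℝ));
            0, ((d₂⁻¹ : ℝˣ) : ℝ)] : Matrix (Fin 2) (Fin 2) ℝ) := by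
      funext x
      rfl
    rw [h]
    refine continuous_matrix fun i j => ?_
    fin_cases i <;> fin_cases j
    · exact continuous_const
    · exact ((continuous_const.mul (continuous_id.add continuous_const)).mul
        continuous_const).neg
    · exact continuous_const
    · exact continuous_const

/-- The entry `(0,1)` is continuous on `GL₂(ℝ)`. -/
theorem continuous_entry611 :
    Continuous (fun g : GL (Fin 2) ℝ => (g : Matrix (Fin 2) (Fin 2) ℝ) 0 1) :=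
  Continuous.matrix_elem (Units.continuous_val (M := Matrix (Fin 2) (Fin 2) ℝ)) 0 1

theorem hasCompactSupport_upperGL611 {F : GL (Fin 2) ℝ → ℂ} (hF : HasCompactSupport F)
    (d₁ d₂ : ℝˣ) (t : ℝ) :
    HasCompactSupport (fun x : ℝ => F (upperGL d₁ d₂ (x + t))) := by
  have hC : IsCompact ((fun g : GL (Fin 2) ℝ => (g : Matrix (Fin 2) (Fin 2) ℝ) 0 1)
      '' tsupport F) := hF.image continuous_entry611
  have hC' : IsCompact ((fun y : ℝ => y - t) ''
      ((fun g : GL (Fin 2) ℝ => (g : Matrix (Fin 2) (Fin 2) ℝ) 0 1) '' tsupport F)) :=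
    hC.image (continuous_id.sub continuous_const)
  refine HasCompactSupport.intro hC' fun x hx => ?_
  by_contra hne
  apply hx
  refine ⟨x + t, ⟨upperGL d₁ d₂ (x + t), subset_tsupport F hne, rfl⟩, ?_⟩
  simp

/-! ## 2. Elementary facts -/

theorem sqrt_zpow611 {r : ℝ} (hr : 0 ≤ r) (j : ℤ) : Real.sqrt (r ^ j) = Real.sqrt r ^ j := by
  rw [Real.sqrt_eq_iff_mul_self_eq (zpow_nonneg hr j) (zpow_nonneg (Real.sqrt_nonneg r) j),
    ← mul_zpow, Real.mul_self_sqrt hr]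

theorem neg_one_zpow_inv611 (n : ℤ) : ((-1 : ℂ) ^ n)⁻¹ = (-1 : ℂ) ^ n := by
  rcases Int.even_or_odd n with h | h
  · rw [h.neg_one_zpow, inv_one]
  · rw [h.neg_one_zpow, inv_neg, inv_one]

/-- `-1 ∈ SO(2)`. -/
theorem inSO2_neg_one611 : T6.InSO2 (-1 : GL (Fin 2) ℝ) := by
  constructor
  · ext i j
    fin_cases i <;> fin_cases j <;> simp [Matrix.mul_apply, Fin.sum_univ_two]
  · simp [Matrix.det_fin_two]

theorem wtChar_neg_one611 (n : ℤ) : T6.wtChar n (-1 : GL (Fin 2) ℝ) = (-1 : ℂ) ^ n := by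
  unfold T6.wtChar T6.holPart
  congr 1
  simp

theorem upperGL_neg611 (b₁ b₂ : ℝˣ) (x : ℝ) :
    upperGL (-b₁) (-b₂) x = (-1 : GL (Fin 2) ℝ) * upperGL b₁ b₂ (-x) := by
  apply Units.ext
  ext i j
  fin_cases i <;> fin_cases j <;> simp [upperGL_coe]

theorem det_upperGL611 (d₁ d₂ : ℝˣ) (x : ℝ) :
    ((upperGL d₁ d₂ x : GL (Fin 2) ℝ) : Matrix (Fin 2) (Fin 2) ℝ).det = (d₁ : ℝ) * (d₂ : ℝ) := by
  rw [upperGL_coe, Matrix.det_fin_two_of]
  ring

/-! ## 3. The local computation on `GL₂(ℝ)` -/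

section Local

variable {n : ℤ} {F : GL (Fin 2) ℝ → ℂ} {β : ℝ × ℝ → ℂ}

theorem integral_pos611 (hβ : HasAbelNR F β) (b₁ b₂ r : ℝˣ) (h1 : 0 < (b₁ : ℝ))
    (h2 : 0 < (b₂ : ℝ)) (hr : 0 < (r : ℝ)) (j : ℤ) :
    ∫ x : ℝ, F (upperGL (b₁ * r ^ j) b₂ x)
      = ((Real.sqrt ((b₁ : ℝ) * (b₂ : ℝ)) * Real.sqrt (r : ℝ) ^ j : ℝ) : ℂ)
        * β (Real.log (b₁ : ℝ) + j * Real.log (r : ℝ), Real.log (b₂ : ℝ)) := by
  have hval : ((b₁ * r ^ j : ℝˣ) : ℝ) = (b₁ : ℝ) * (r : ℝ) ^ j := by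
    rw [Units.val_mul, Units.val_zpow_eq_zpow_val]
  have hpos : 0 < ((b₁ * r ^ j : ℝˣ) : ℝ) := by
    rw [hval]
    exact mul_pos h1 (zpow_pos hr j)
  rw [hβ _ _ hpos h2, hval]
  have hs : Real.sqrt ((b₁ : ℝ) * (r : ℝ) ^ j * (b₂ : ℝ))
      = Real.sqrt ((b₁ : ℝ) * (b₂ : ℝ)) * Real.sqrt (r : ℝ) ^ j := by
    rw [← sqrt_zpow611 hr.le, ← Real.sqrt_mul (mul_pos h1 h2).le]
    congr 1
    ring
  have hl : Real.log ((b₁ : ℝ) * (r : ℝ) ^ j) = Real.log (b₁ : ℝ) + j * Real.log (r : ℝ) := by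
    rw [Real.log_mul h1.ne' (zpow_ne_zero _ hr.ne'), Real.log_zpow]
  rw [hs, hl]

theorem integral_core611 (hF : T6.IsArchTestR n F) (hβ : HasAbelNR F β) (a₁ a₂ r : ℝˣ)
    (hr : 0 < (r : ℝ)) (j : ℤ) :
    ∫ x : ℝ, F (upperGL (a₁ * r ^ j) a₂ x)
      = sgnR n (a₁ : ℝ) (a₂ : ℝ)
        * ((Real.sqrt (|(a₁ : ℝ)| * |(a₂ : ℝ)|) * Real.sqrt (r : ℝ) ^ j : ℝ) : ℂ)
        * β (Real.log |(a₁ : ℝ)| + j * Real.log (r : ℝ), Real.log |(a₂ : ℝ)|) := by
  have hrj : 0 < (r : ℝ) ^ j := zpow_pos hr j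
  rcases lt_or_gt_of_ne (Units.ne_zero a₁) with h1 | h1
  · rcases lt_or_gt_of_ne (Units.ne_zero a₂) with h2 | h2
    · -- both negative
      have hs : sgnR n (a₁ : ℝ) (a₂ : ℝ) = (-1 : ℂ) ^ n := by
        unfold sgnR
        rw [if_neg (fun h => absurd h.1 (not_lt.mpr h1.le)), if_pos ⟨h1, h2⟩]
      have hb1 : 0 < ((-a₁ : ℝˣ) : ℝ) := by
        rw [Units.val_neg]; exact neg_pos.mpr h1
      have hb2 : 0 < ((-a₂ : ℝˣ) : ℝ) := by
        rw [Units.val_neg]; exact neg_pos.mpr h2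
      have hfun : (fun x : ℝ => F (upperGL (a₁ * r ^ j) a₂ x))
          = fun x : ℝ => (-1 : ℂ) ^ n * F (upperGL (-a₁ * r ^ j) (-a₂) (-x)) := by
        funext x
        have h0 : upperGL (a₁ * r ^ j) a₂ x
            = (-1 : GL (Fin 2) ℝ) * upperGL (-a₁ * r ^ j) (-a₂) (-x) := by
          rw [← upperGL_neg611]
          congr 1
          · rw [neg_mul, neg_neg]
          · rw [neg_neg]
        rw [h0, hF.left _ _ inSO2_neg_one611, wtChar_neg_one611, neg_one_zpow_inv611]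
      rw [hfun, integral_const_mul,
        integral_neg_eq_self (fun x : ℝ => F (upperGL (-a₁ * r ^ j) (-a₂) x)) volume,
        integral_pos611 hβ (-a₁) (-a₂) r hb1 hb2 hr j, hs, Units.val_neg, Units.val_neg,
        abs_of_neg h1, abs_of_neg h2]
      push_cast
      ring
    · -- a₁ < 0 < a₂
      have hs : sgnR n (a₁ : ℝ) (a₂ : ℝ) = 0 := by
        unfold sgnR
        rw [if_neg (fun h => absurd h.1 (not_lt.mpr h1.le)),
          if_neg (fun h => absurd h.2 (not_lt.mpr h2.le))]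
      have hz : (fun x : ℝ => F (upperGL (a₁ * r ^ j) a₂ x)) = fun _ => 0 := by
        funext x
        by_contra hne
        have hd := hF.pos _ hne
        rw [det_upperGL611, Units.val_mul, Units.val_zpow_eq_zpow_val] at hd
        have : (a₁ : ℝ) * (r : ℝ) ^ j * (a₂ : ℝ) < 0 :=
          mul_neg_of_neg_of_pos (mul_neg_of_neg_of_pos h1 hrj) h2
        exact absurd hd (not_lt.mpr this.le)
      rw [hz, hs]
      simp
  · rcases lt_or_gt_of_ne (Units.ne_zero a₂) with h2 | h2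
    · -- a₂ < 0 < a₁
      have hs : sgnR n (a₁ : ℝ) (a₂ : ℝ) = 0 := by
        unfold sgnR
        rw [if_neg (fun h => absurd h.2 (not_lt.mpr h2.le)),
          if_neg (fun h => absurd h.1 (not_lt.mpr h1.le))]
      have hz : (fun x : ℝ => F (upperGL (a₁ * r ^ j) a₂ x)) = fun _ => 0 := by
        funext x
        by_contra hne
        have hd := hF.pos _ hne
        rw [det_upperGL611, Units.val_mul, Units.val_zpow_eq_zpow_val] at hd
        have : (a₁ : ℝ) * (r : ℝ) ^ j * (a₂ : ℝ) < 0 :=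
          mul_neg_of_pos_of_neg (mul_pos h1 hrj) h2
        exact absurd hd (not_lt.mpr this.le)
      rw [hz, hs]
      simp
    · -- both positive
      have hs : sgnR n (a₁ : ℝ) (a₂ : ℝ) = 1 := by
        unfold sgnR
        rw [if_pos ⟨h1, h2⟩]
      rw [integral_pos611 hβ a₁ a₂ r h1 h2 hr j, hs, abs_of_pos h1, abs_of_pos h2, one_mul]

end Local

/-! ## 4. The component of a rational unit at a real place -/

variable (K : Type) [Field K] [NumberField K]

theorem reHom_algebraMap611 (w : InfinitePlace K) (hw : w.IsReal) (a : K) :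
    reHom K w hw (algebraMap K (Adl K) a) = InfinitePlace.embedding_of_isReal hw a := by
  change InfinitePlace.Completion.extensionEmbeddingOfIsReal hw
    ((algebraMap K (Adl K) a).1 w) = _
  rw [NumberField.AdeleRing.algebraMap_fst_apply]
  exact InfinitePlace.Completion.extensionEmbeddingOfIsReal_coe hw (WithAbs.toAbs w.1 a)

theorem reU_ratUnit611 (w : InfinitePlace K) (hw : w.IsReal) (α : Kˣ) :
    ((reU K w hw (T1.ratUnit K α) : ℝˣ) : ℝ) = InfinitePlace.embedding_of_isReal hw (α : K) := by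
  rw [reU_coe]
  exact reHom_algebraMap611 K w hw (α : K)

/-! ## 5. The leaf -/

/-- **Leaf R.7 `LocValInfRC`** (station T3.18R of helper14). -/
theorem locValInfRC611 : LocValInfRC K := by
  intro hR α hα w n F β hF hβ c₁ c₂ j t
  refine ⟨hF.cont.comp (continuous_upperGL611 _ _ t),
    hasCompactSupport_upperGL611 hF.supp _ _ t, ?_⟩
  have hrpos : 0 < ((reU K w (hR w) (T1.ratUnit K α) : ℝˣ) : ℝ) := by
    rw [reU_ratUnit611]
    exact hα w
  have hw : w (α : K) = ((reU K w (hR w) (T1.ratUnit K α) : ℝˣ) : ℝ) := by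
    rw [reU_ratUnit611, ← InfinitePlace.norm_embedding_of_isReal (hR w), Real.norm_eq_abs,
      abs_of_pos (hα w)]
  have h1 : ∫ x : ℝ, F (upperGL (reU K w (hR w) (c₁ * T1.ratUnit K α ^ j))
        (reU K w (hR w) c₂) (x + t))
      = ∫ x : ℝ, F (upperGL (reU K w (hR w) (c₁ * T1.ratUnit K α ^ j))
        (reU K w (hR w) c₂) x) :=
    integral_add_right_eq_self
      (fun x : ℝ => F (upperGL (reU K w (hR w) (c₁ * T1.ratUnit K α ^ j))
        (reU K w (hR w) c₂) x)) t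
  rw [h1, map_mul, map_zpow, hw]
  exact integral_core611 hF hβ _ _ _ hrpos j

end Fermat.Agent.LT.T3.R.H611

end
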